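/-
GATE-E / E8.0 NEWRED (helper8): **the newform companion in the residual vocabulary.**

`W.IsResiduallyModularOfLevel p M₀` (`M₀ ≠ 0`, `Δ_W ≠ 0`) ⟹ there are `M ∣ M₀`, a NEWFORM `g` of
level `M` (Prelude `CuspForm.IsNewform`) and a maximal ideal `𝔪 ∋ p` of `ℤ̄` with
`a_ℓ(g) ≡ a_ℓ(W) (mod 𝔪)` at ALL good primes `ℓ ∤ M p` of `W` — in particular
`W.IsResiduallyModularOfLevel p M` — and `a_ℓ(g) = a_ℓ(f)` for `ℓ ∤ M₀`.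

Proof: `GE/MinLevel.exists_newform_of_eigenform` (newform for free, same good eigenvalues at
`ℓ ∤ M₀`) + helper79's `GB/Top/CongrExtend.congr_extend` (Chebotarev: residual congruences outside
the finite set of primes dividing `M₀` extend to all good primes `ℓ ∤ M p`).
-/
import Mathlib
import Fermat.Agent.GE.MinLevel
import Fermat.Agent.GB.Top.CongrAll

set_option autoImplicit false

open ModularFormClass CuspForm WeierstrassCurve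

namespace Fermat.Agent.GE8.NewRed

/-- **E8.0, form-level.**  The newform companion of the eigenform of a residual modularity datum
carries the residual eigensystem of `W` at all good primes not dividing ITS level. -/
theorem exists_newform_of_residual (W : WeierstrassCurve ℤ) (hΔ : W.Δ ≠ 0) {p M₀ : ℕ}
    (hp : p.Prime) (hM₀ : M₀ ≠ 0)
    (f : CuspForm (CongruenceSubgroup.Gamma0 M₀) 2) (𝔪 : Ideal (integralClosure ℤ ℂ))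
    (hf : f.IsNormalizedEigenform) (h𝔪 : 𝔪.IsMaximal) (hp𝔪 : (p : integralClosure ℤ ℂ) ∈ 𝔪)
    (hcong : ∀ ℓ : ℕ, ℓ.Prime → W.IsGoodPrimeFor ℓ → ¬ ℓ ∣ M₀ → ℓ ≠ p →
      ∃ a : integralClosure ℤ ℂ, (a : ℂ) = qCoeff f ℓ ∧
        a - ((W.apOfModel ℓ : ℤ) : integralClosure ℤ ℂ) ∈ 𝔪) :
    ∃ M : ℕ, 0 < M ∧ M ∣ M₀ ∧ ∃ g : CuspForm (CongruenceSubgroup.Gamma0 M) 2, g.IsNewform ∧
      (∀ ℓ : ℕ, ℓ.Prime → ¬ ℓ ∣ M₀ → qCoeff g ℓ = qCoeff f ℓ) ∧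
      (∀ ℓ : ℕ, ℓ.Prime → W.IsGoodPrimeFor ℓ → ¬ ℓ ∣ M → ℓ ≠ p →
        ∃ a : integralClosure ℤ ℂ, (a : ℂ) = qCoeff g ℓ ∧
          a - ((W.apOfModel ℓ : ℤ) : integralClosure ℤ ℂ) ∈ 𝔪) := by
  obtain ⟨M, hMpos, hMM₀, g, hg, hgf⟩ :=
    Fermat.Agent.GE.MinLevel.exists_newform_of_eigenform' hM₀ hf
  refine ⟨M, hMpos, hMM₀, g, hg, hgf, ?_⟩
  refine Fermat.Agent.GB.Top.CongrAll.congr_all_of_cofinite W hΔ p M hp g 𝔪 hg.1 h𝔪 hp𝔪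
    M₀.primeFactors ?_
  intro ℓ hℓ hℓB hgood _ hℓp
  have hℓM₀ : ¬ ℓ ∣ M₀ := fun hd => hℓB (Nat.mem_primeFactors.mpr ⟨hℓ, hd, hM₀⟩)
  obtain ⟨a, ha, ham⟩ := hcong ℓ hℓ hgood hℓM₀ hℓp
  exact ⟨a, by rw [ha, hgf ℓ hℓ hℓM₀], ham⟩

/-- **E8.0 NEWRED**, residual vocabulary: residually modular of level `M₀` ⟹ residually modular
of a level `M ∣ M₀` through a NEWFORM of level `M`. -/
theorem exists_newform_level (W : WeierstrassCurve ℤ) (hΔ : W.Δ ≠ 0) {p M₀ : ℕ} (hp : p.Prime)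
    (hM₀ : M₀ ≠ 0) (h : W.IsResiduallyModularOfLevel p M₀) :
    ∃ M : ℕ, 0 < M ∧ M ∣ M₀ ∧ ∃ (g : CuspForm (CongruenceSubgroup.Gamma0 M) 2)
      (𝔪 : Ideal (integralClosure ℤ ℂ)), g.IsNewform ∧ 𝔪.IsMaximal ∧
      (p : integralClosure ℤ ℂ) ∈ 𝔪 ∧
      ∀ ℓ : ℕ, ℓ.Prime → W.IsGoodPrimeFor ℓ → ¬ ℓ ∣ M → ℓ ≠ p →
        ∃ a : integralClosure ℤ ℂ, (a : ℂ) = qCoeff g ℓ ∧
          a - ((W.apOfModel ℓ : ℤ) : integralClosure ℤ ℂ) ∈ 𝔪 := by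
  obtain ⟨f, 𝔪, hf, h𝔪, hp𝔪, hcong⟩ := h
  obtain ⟨M, hMpos, hMM₀, g, hg, -, hgW⟩ :=
    exists_newform_of_residual W hΔ hp hM₀ f 𝔪 hf h𝔪 hp𝔪 hcong
  exact ⟨M, hMpos, hMM₀, g, 𝔪, hg, h𝔪, hp𝔪, hgW⟩

/-- in particular `W` is residually modular of the level of the newform -/
theorem isResiduallyModularOfLevel_newform_level (W : WeierstrassCurve ℤ) (hΔ : W.Δ ≠ 0)
    {p M₀ : ℕ} (hp : p.Prime) (hM₀ : M₀ ≠ 0) (h : W.IsResiduallyModularOfLevel p M₀) :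
    ∃ M : ℕ, 0 < M ∧ M ∣ M₀ ∧ W.IsResiduallyModularOfLevel p M ∧
      ∃ g : CuspForm (CongruenceSubgroup.Gamma0 M) 2, g.IsNewform := by
  obtain ⟨M, hMpos, hMM₀, g, 𝔪, hg, h𝔪, hp𝔪, hgW⟩ := exists_newform_level W hΔ hp hM₀ h
  exact ⟨M, hMpos, hMM₀, ⟨g, 𝔪, hg.1, h𝔪, hp𝔪, hgW⟩, g, hg⟩

/-- the statement of E8.0 as a `Prop` (pattern of GRAPH v0, R4) -/
def NewRedStmt : Prop :=
  ∀ (W : WeierstrassCurve ℤ), W.Δ ≠ 0 → ∀ (p M₀ : ℕ), p.Prime → M₀ ≠ 0 →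
    W.IsResiduallyModularOfLevel p M₀ →
    ∃ M : ℕ, 0 < M ∧ M ∣ M₀ ∧ ∃ (g : CuspForm (CongruenceSubgroup.Gamma0 M) 2)
      (𝔪 : Ideal (integralClosure ℤ ℂ)), g.IsNewform ∧ 𝔪.IsMaximal ∧
      (p : integralClosure ℤ ℂ) ∈ 𝔪 ∧
      ∀ ℓ : ℕ, ℓ.Prime → W.IsGoodPrimeFor ℓ → ¬ ℓ ∣ M → ℓ ≠ p →
        ∃ a : integralClosure ℤ ℂ, (a : ℂ) = qCoeff g ℓ ∧
          a - ((W.apOfModel ℓ : ℤ) : integralClosure ℤ ℂ) ∈ 𝔪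

theorem newRedStmt : NewRedStmt := fun W hΔ _ _ hp hM₀ h => exists_newform_level W hΔ hp hM₀ h

end Fermat.Agent.GE8.NewRed
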